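/-
S59, cell NM, leaf RFD (helper155): the residual Hecke character of a Hecke–Galois datum with
residual representation `ρ̄` is the Frobenius character of `ρ̄`.

`resFrobOfDatum : Arch.ResFrobOfDatumStatement` (verbatim, `Arch/SpecNM.lean`).

Proof: `H.charpoly_frob` reduced modulo `𝔪_T`, transported along the equivalence with
`ρ̄ ⊗ k_T`, and injectivity of the field homomorphism `k_𝒪 → k_T`.
-/
import Fermat.Agent.S59.Arch.SpecNM

set_option autoImplicit false
set_option linter.style.haveILetI false

namespace Fermat.Agent.S59.H155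

open Polynomial IsLocalRing

/-- Characteristic polynomial of the residual representation. -/
theorem charpoly_residual155 {A : Type} [CommRing A] [IsLocalRing A] (ρ : GaloisRepAdic A)
    (σ : AlgebraicClosure ℚ ≃ₐ[ℚ] AlgebraicClosure ℚ) :
    LinearMap.charpoly (ρ.residual.ρ σ) = (LinearMap.charpoly (ρ.ρ σ)).map (residue A) :=
  LinearMap.charpoly_baseChange (ρ.ρ σ) (ResidueField A)

/-- Characteristic polynomial of a base change of a residual representation. -/
theorem charpoly_resBaseChangeAlong155 {k k' : Type} [Field k] [Field k'] (ι : k →+* k')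
    (ρbar : ResidualGaloisRep k) (σ : AlgebraicClosure ℚ ≃ₐ[ℚ] AlgebraicClosure ℚ) :
    LinearMap.charpoly ((ρbar.baseChangeAlong ι).ρ σ) = (LinearMap.charpoly (ρbar.ρ σ)).map ι := by
  letI : Algebra k k' := ι.toAlgebra
  exact LinearMap.charpoly_baseChange (ρbar.ρ σ) k'

/-- Equivalent residual representations have the same characteristic polynomials. -/
theorem charpoly_eq_of_resIsEquiv155 {k : Type} [Field k] {ρ₁ ρ₂ : ResidualGaloisRep k}
    (h : ρ₁.IsEquiv ρ₂) (σ : AlgebraicClosure ℚ ≃ₐ[ℚ] AlgebraicClosure ℚ) :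
    LinearMap.charpoly (ρ₁.ρ σ) = LinearMap.charpoly (ρ₂.ρ σ) := by
  obtain ⟨E⟩ := h
  rw [← LinearEquiv.charpoly_conj E.toLinearEquiv (ρ₁.ρ σ)]
  congr 1
  apply LinearMap.ext
  intro w
  rw [LinearEquiv.conj_apply_apply, E.map_apply, LinearEquiv.apply_symm_apply]

/-- **LEAF RFD.** -/
theorem resFrobOfDatum : Arch.ResFrobOfDatumStatement := by
  intro N _ S 𝒪 _ _ _ _ ρbar θ T _ _ _ _ _ _ _ _ H hEq ℓ hℓ hℓN hℓS B hB σ hσ
  have h1 := H.charpoly_frob ℓ hℓ hℓN hℓS B hB σ hσ
  have h2 := charpoly_eq_of_resIsEquiv155 hEq σ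
  rw [charpoly_residual155, charpoly_resBaseChangeAlong155, h1] at h2
  have hinj : Function.Injective
      (Polynomial.map (ResidueField.map (algebraMap 𝒪 T)) :
        (ResidueField 𝒪)[X] → (ResidueField T)[X]) :=
    Polynomial.map_injective _ (RingHom.injective _)
  apply hinj
  rw [← h2]
  simp only [Polynomial.map_sub, Polynomial.map_add, Polynomial.map_mul, Polynomial.map_pow,
    Polynomial.map_X, Polynomial.map_C, Polynomial.map_natCast, map_natCast]
  rw [H.residue_π]

end Fermat.Agent.S59.H155
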