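/-
S59 (helper155): Carayol's rigidity theorem in rank `2`, abstract form (Mathlib only).

`exists_conj_of_trace_eq155`: `A` a commutative local ring, `R` an `A`-algebra,
`μ₁ μ₂ : R →ₐ[A] M₂(A)` with the same trace function, `μ₂` surjective.  Then `μ₁` and `μ₂` are
conjugate: `μ₁ x = P * μ₂ x * Q` with `P * Q = Q * P = 1`.

No hypothesis on `2`, no involution: Gram matrix of the trace form + matrix units.
-/
import Mathlib

set_option autoImplicit false
set_option linter.unusedSectionVars false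

namespace Fermat.Agent.S59.H155

open Matrix

section Abs

variable {A : Type*} [CommRing A] {R : Type*} [Ring R] [Algebra A R]

/-- `tr (E_ab E_cd) = δ_bc δ_ad`. -/
theorem trace_single_mul_single155 (a b c d : Fin 2) :
    (Matrix.single a b (1 : A) * Matrix.single c d (1 : A)).trace =
      if b = c ∧ a = d then 1 else 0 := by
  by_cases hbc : b = c
  · subst hbc
    rw [Matrix.single_mul_single_same, mul_one]
    by_cases had : a = d
    · subst had
      rw [Matrix.trace_single_eq_same, if_pos ⟨rfl, rfl⟩]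
    · rw [Matrix.trace_single_eq_of_ne _ _ _ had, if_neg (fun h => had h.2)]
  · rw [Matrix.single_mul_single_of_ne _ _ _ _ hbc, Matrix.trace_zero,
      if_neg (fun h => hbc h.1)]

/-- A matrix as a combination of matrix units. -/
theorem eq_sum_smul_single155 (M : Matrix (Fin 2) (Fin 2) A) :
    M = ∑ a, ∑ b, M a b • Matrix.single a b (1 : A) := by
  conv_lhs => rw [Matrix.matrix_eq_sum_single M]
  refine Finset.sum_congr rfl fun a _ => Finset.sum_congr rfl fun b _ => ?_
  rw [Matrix.smul_single, smul_eq_mul, mul_one]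

/-- **Carayol's theorem, rank 2, abstract form.** -/
theorem exists_conj_of_trace_eq155 [IsLocalRing A]
    (μ₁ μ₂ : R →ₐ[A] Matrix (Fin 2) (Fin 2) A)
    (htr : ∀ x, (μ₁ x).trace = (μ₂ x).trace) (hsurj : Function.Surjective μ₂) :
    ∃ P Q : Matrix (Fin 2) (Fin 2) A, P * Q = 1 ∧ Q * P = 1 ∧ ∀ x, μ₁ x = P * μ₂ x * Q := by
  classical
  choose x hx using fun (a b : Fin 2) => hsurj (Matrix.single a b 1)
  set Y : Fin 2 → Fin 2 → Matrix (Fin 2) (Fin 2) A := fun a b => μ₁ (x a b) with hY
  have hYdef : ∀ a b, Y a b = μ₁ (x a b) := fun _ _ => rfl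
  -- the Gram matrix of the `Y a b`
  have hGram : ∀ a b c d, (Y a b * Y c d).trace = if b = c ∧ a = d then 1 else 0 := by
    intro a b c d
    rw [hYdef, hYdef, ← map_mul, htr, map_mul, hx, hx]
    exact trace_single_mul_single155 a b c d
  -- the trace form against the `Y a b`
  let Ψ : Matrix (Fin 2) (Fin 2) A →ₗ[A] Matrix (Fin 2) (Fin 2) A :=
    { toFun := fun X => Matrix.of fun d c => (X * Y c d).trace
      map_add' := fun X X' => by
        ext d c
        simp only [Matrix.of_apply, Matrix.add_apply, Matrix.add_mul, Matrix.trace_add]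
      map_smul' := fun r X => by
        ext d c
        simp only [Matrix.of_apply, Matrix.smul_apply, Matrix.smul_mul, Matrix.trace_smul,
          RingHom.id_apply] }
  have hΨ : ∀ X d c, Ψ X d c = (X * Y c d).trace := fun _ _ _ => rfl
  have hΨsurj : Function.Surjective Ψ := by
    intro Λ
    refine ⟨∑ c, ∑ d, Λ c d • Y c d, ?_⟩
    ext d' c'
    rw [hΨ, Finset.sum_mul, Matrix.trace_sum]
    simp only [Finset.sum_mul, Matrix.trace_sum, Matrix.smul_mul, Matrix.trace_smul, hGram,
      smul_eq_mul, mul_ite, mul_one, mul_zero]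
    simp only [Fin.sum_univ_two]
    fin_cases d' <;> fin_cases c' <;> simp
  have hΨinj : Function.Injective Ψ :=
    OrzechProperty.injective_of_surjective_endomorphism Ψ hΨsurj
  -- the kernel of `μ₂` is contained in the kernel of `μ₁`
  have hker : ∀ r, μ₂ r = 0 → μ₁ r = 0 := by
    intro r hr
    apply hΨinj
    rw [map_zero]
    ext d c
    rw [hΨ, hYdef, ← map_mul, htr, map_mul, hr, zero_mul, Matrix.trace_zero, Matrix.zero_apply]
  -- `μ₁` in terms of `μ₂`
  have hφ : ∀ r, μ₁ r = ∑ a, ∑ b, (μ₂ r) a b • Y a b := by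
    intro r
    have h0 : μ₂ (r - ∑ a, ∑ b, (μ₂ r) a b • x a b) = 0 := by
      rw [map_sub, sub_eq_zero]
      simp only [map_sum, map_smul, hx]
      exact eq_sum_smul_single155 (μ₂ r)
    have h2 := hker _ h0
    rw [map_sub, sub_eq_zero] at h2
    rw [h2]
    simp only [map_sum, map_smul, hYdef]
  -- matrix unit relations
  have hrel : ∀ a b c d, Y a b * Y c d = if b = c then Y a d else 0 := by
    intro a b c d
    by_cases hbc : b = c
    · subst hbc
      rw [if_pos rfl]
      have h0 : μ₂ (x a b * x b d - x a d) = 0 := by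
        rw [map_sub, map_mul, hx, hx, hx, Matrix.single_mul_single_same, mul_one, sub_self]
      have h2 := hker _ h0
      rw [map_sub, map_mul, sub_eq_zero] at h2
      exact h2
    · rw [if_neg hbc]
      have h0 : μ₂ (x a b * x c d) = 0 := by
        rw [map_mul, hx, hx, Matrix.single_mul_single_of_ne _ _ _ _ hbc]
      have h2 := hker _ h0
      rw [map_mul] at h2
      exact h2
  have htr00 : (Y 0 0).trace = 1 := by
    rw [hYdef, htr, hx, Matrix.trace_single_eq_same]
  obtain ⟨i, hi⟩ : ∃ i : Fin 2, IsUnit ((Y 0 0) i i) := by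
    have h : (Y 0 0) 0 0 + (Y 0 0) 1 1 = 1 := by
      rw [← htr00, Matrix.trace_fin_two]
    rcases IsLocalRing.isUnit_or_isUnit_of_add_one h with h0 | h1
    · exact ⟨0, h0⟩
    · exact ⟨1, h1⟩
  set t : A := (Y 0 0) i i with ht
  set P : Matrix (Fin 2) (Fin 2) A :=
    Y 0 0 * Matrix.single i 0 1 + Y 1 0 * Matrix.single i 1 1 with hP
  set Q' : Matrix (Fin 2) (Fin 2) A :=
    Matrix.single 0 i 1 * Y 0 0 + Matrix.single 1 i 1 * Y 0 1 with hQ'
  have h10 : (1 : Fin 2) ≠ 0 := by decide
  have h01 : (0 : Fin 2) ≠ 1 := by decide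
  have hQP : Q' * P = t • (1 : Matrix (Fin 2) (Fin 2) A) := by
    have e1 : Matrix.single 0 i 1 * Y 0 0 * (Y 0 0 * Matrix.single i 0 1) =
        Matrix.single 0 0 t := by
      rw [Matrix.mul_assoc, ← Matrix.mul_assoc (Y 0 0), hrel, if_pos rfl, ← Matrix.mul_assoc,
        Matrix.single_mul_mul_single, one_mul, mul_one]
    have e2 : Matrix.single 0 i 1 * Y 0 0 * (Y 1 0 * Matrix.single i 1 1) = 0 := by
      rw [Matrix.mul_assoc, ← Matrix.mul_assoc (Y 0 0), hrel, if_neg h01, Matrix.zero_mul,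
        Matrix.mul_zero]
    have e3 : Matrix.single 1 i 1 * Y 0 1 * (Y 0 0 * Matrix.single i 0 1) = 0 := by
      rw [Matrix.mul_assoc, ← Matrix.mul_assoc (Y 0 1), hrel, if_neg h10, Matrix.zero_mul,
        Matrix.mul_zero]
    have e4 : Matrix.single 1 i 1 * Y 0 1 * (Y 1 0 * Matrix.single i 1 1) =
        Matrix.single 1 1 t := by
      rw [Matrix.mul_assoc, ← Matrix.mul_assoc (Y 0 1), hrel, if_pos rfl, ← Matrix.mul_assoc,
        Matrix.single_mul_mul_single, one_mul, mul_one]
    rw [hQ', hP, Matrix.add_mul, Matrix.mul_add, Matrix.mul_add, e1, e2, e3, e4, add_zero,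
      zero_add]
    ext a b
    fin_cases a <;> fin_cases b <;> simp [Matrix.single]
  have hYP : ∀ a b, Y a b * P = P * Matrix.single a b 1 := by
    intro a b
    rw [hP, Matrix.mul_add, Matrix.add_mul, ← Matrix.mul_assoc, ← Matrix.mul_assoc, hrel, hrel,
      Matrix.mul_assoc, Matrix.mul_assoc]
    fin_cases a <;> fin_cases b <;> simp
  have hμP : ∀ r, μ₁ r * P = P * μ₂ r := by
    intro r
    rw [hφ r]
    conv_rhs => rw [eq_sum_smul_single155 (μ₂ r)]
    rw [Finset.sum_mul, Finset.mul_sum]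
    refine Finset.sum_congr rfl fun a _ => ?_
    rw [Finset.sum_mul, Finset.mul_sum]
    refine Finset.sum_congr rfl fun b _ => ?_
    rw [Matrix.smul_mul, Matrix.mul_smul, hYP]
  obtain ⟨u, hu⟩ := hi
  have hut : (↑u⁻¹ : A) * t = 1 := by
    rw [← hu]
    exact Units.inv_mul u
  have hQP1 : ((↑u⁻¹ : A) • Q') * P = 1 := by
    rw [Matrix.smul_mul, hQP, smul_smul, hut, one_smul]
  have hPQ1 : P * ((↑u⁻¹ : A) • Q') = 1 := mul_eq_one_comm.mp hQP1
  refine ⟨P, (↑u⁻¹ : A) • Q', hPQ1, hQP1, fun r => ?_⟩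
  rw [← hμP, Matrix.mul_assoc, hPQ1, Matrix.mul_one]

end Abs

end Fermat.Agent.S59.H155
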