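/-
S59 (helper155): Carayol's rigidity theorem for `GaloisRepAdic` (rank 2), over ANY local ring.

`isEquiv_of_trace_eq_of_absIrr`: two representations with the same trace function, one of them
residually absolutely irreducible, are equivalent.  (No hypothesis on `2`, no involution; compare
`S59.H307.isEquiv_of_trace_eq` for the odd case.)
-/
import Fermat.Agent.S59.H155.CarayolAbs
import Fermat.Agent.S31.H202.TraceRigid
import Fermat.Agent.S59.H307.GlueRep

set_option autoImplicit false
set_option linter.unusedSectionVars false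

namespace Fermat.Agent.S59.H155

open Fermat.Agent.S59.H307 (GalQ Realizes exists_realizes isEquiv_of_realizes)

variable {A : Type} [CommRing A] [IsLocalRing A]

/-- The matrices of a residually absolutely irreducible representation span `M₂(A)`: the
linearised representation is surjective. -/
theorem lift_surjective_of_absIrr155 (ρ : GaloisRepAdic A)
    (habs : ρ.residual.IsAbsolutelyIrreducible) {e : ρ.V ≃ₗ[A] (Fin 2 → A)}
    {m : GalQ →* Matrix (Fin 2) (Fin 2) A} (h : Realizes ρ e m) :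
    Function.Surjective (MonoidAlgebra.lift A (Matrix (Fin 2) (Fin 2) A) GalQ m) := by
  classical
  set μ := MonoidAlgebra.lift A (Matrix (Fin 2) (Fin 2) A) GalQ m with hμ
  let Φ : Module.End A ρ.V ≃ₗ[A] Matrix (Fin 2) (Fin 2) A :=
    (e.conj).trans LinearMap.toMatrix'
  have hΦ : ∀ σ : GalQ, Φ (ρ.ρ σ) = m σ := by
    intro σ
    show LinearMap.toMatrix' (e.conj (ρ.ρ σ)) = m σ
    rw [h.conj_eq, LinearMap.toMatrix'_toLin']
  have hle : Submodule.span A (Set.range ρ.ρ) ≤
      (LinearMap.range μ.toLinearMap).comap Φ.toLinearMap := by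
    refine Submodule.span_le.mpr ?_
    rintro _ ⟨σ, rfl⟩
    refine ⟨MonoidAlgebra.of A GalQ σ, ?_⟩
    show μ (MonoidAlgebra.of A GalQ σ) = Φ (ρ.ρ σ)
    rw [hΦ, hμ, MonoidAlgebra.lift_of]
  rw [Fermat.Agent.S31.H202.span_range_rho_eq_top ρ habs] at hle
  intro M
  obtain ⟨x, hx⟩ := hle (Submodule.mem_top (x := Φ.symm M))
  refine ⟨x, ?_⟩
  have : Φ (Φ.symm M) = M := Φ.apply_symm_apply M
  rw [← this]
  exact hx

/-- **Carayol's theorem (rank 2).**  Two `GaloisRepAdic A` (`A` any local ring) with the same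
traces, the second one residually absolutely irreducible, are equivalent. -/
theorem isEquiv_of_trace_eq_of_absIrr (ρ₁ ρ₂ : GaloisRepAdic A)
    (htr : ∀ σ, ρ₁.trace σ = ρ₂.trace σ) (habs : ρ₂.residual.IsAbsolutelyIrreducible) :
    ρ₁.IsEquiv ρ₂ := by
  classical
  obtain ⟨e₁, m₁, h₁⟩ := exists_realizes ρ₁
  obtain ⟨e₂, m₂, h₂⟩ := exists_realizes ρ₂
  set μ₁ := MonoidAlgebra.lift A (Matrix (Fin 2) (Fin 2) A) GalQ m₁ with hμ₁
  set μ₂ := MonoidAlgebra.lift A (Matrix (Fin 2) (Fin 2) A) GalQ m₂ with hμ₂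
  have htrμ : ∀ x, (μ₁ x).trace = (μ₂ x).trace := by
    intro x
    induction x using MonoidAlgebra.induction_on with
    | of σ =>
      rw [hμ₁, hμ₂, MonoidAlgebra.lift_of, MonoidAlgebra.lift_of, ← h₁.trace_eq, ← h₂.trace_eq]
      exact htr σ
    | add x y hx hy => rw [map_add, map_add, Matrix.trace_add, Matrix.trace_add, hx, hy]
    | smul r x hx => rw [map_smul, map_smul, Matrix.trace_smul, Matrix.trace_smul, hx]
  have hsurj : Function.Surjective μ₂ := lift_surjective_of_absIrr155 ρ₂ habs h₂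
  obtain ⟨P, Q, hPQ, hQP, hconj⟩ := exists_conj_of_trace_eq155 μ₁ μ₂ htrμ hsurj
  have hm : ∀ σ, m₁ σ = P * m₂ σ * Q := by
    intro σ
    have := hconj (MonoidAlgebra.of A GalQ σ)
    rw [hμ₁, hμ₂, MonoidAlgebra.lift_of, MonoidAlgebra.lift_of] at this
    exact this
  have h₂' := h₂.conj hQP hPQ
  have h₁' : Realizes ρ₁ e₁ (fun σ => P * m₂ σ * Q) := by
    intro σ v
    rw [h₁ σ v, hm]
  exact isEquiv_of_realizes h₁' h₂'

end Fermat.Agent.S59.H155
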