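/-
S59, cell NM, leaf RIG (helper155): trace rigidity between two levels.

`levelRigid : Arch.LevelRigidStatement` (verbatim, `Arch/SpecNM.lean`).

Proof: the push-forward of `ρ_{T'}` along `res = H765.resLocal` and `ρ_T` have the same
Frobenius characteristic polynomials at the primes `ℓ ∉ S'`, `ℓ ∤ N'` (`H765.resLocal_T`), hence
the same traces everywhere (Chebotarev + adic continuity + Krull), hence they are equivalent by
Carayol's theorem (`isEquiv_of_trace_eq_of_absIrr`; `ρ_T` is residually absolutely irreducible).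
-/
import Fermat.Agent.S59.Arch.SpecNM
import Fermat.Agent.S59.H155.Carayol

set_option autoImplicit false
set_option linter.unusedSectionVars false
set_option linter.style.haveILetI false

namespace Fermat.Agent.S59.H155

open Polynomial IsLocalRing CuspForm
open Fermat.Agent.Lib.Cheb.Spec (Qb GQ)

/-- Trace of a base change. -/
theorem trace_baseChangeAlong155 {A B : Type} [CommRing A] [IsLocalRing A] [CommRing B]
    [IsLocalRing B] (φ : A →+* B) (hφ : IsLocalHom φ) (ρ : GaloisRepAdic A) (σ : GQ) :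
    (ρ.baseChangeAlong φ hφ).trace σ = φ (ρ.trace σ) := by
  letI : Algebra A B := φ.toAlgebra
  exact LinearMap.trace_baseChange (ρ.ρ σ) B

/-- Two adic representations over a Noetherian local ring whose traces agree at the Frobenius
elements of all primes outside a finite set have the same trace function. -/
theorem trace_eq_of_frob155 {T : Type} [CommRing T] [IsLocalRing T] [IsNoetherianRing T]
    (ρ₁ ρ₂ : GaloisRepAdic T) (F : Finset ℕ)
    (h : ∀ ℓ : ℕ, ℓ.Prime → ℓ ∉ F → ∀ B : ValuationSubring Qb, B.LiesOverPrime ℓ →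
      ∀ σ : GQ, B.IsFrobeniusAt σ ℓ → ρ₁.trace σ = ρ₂.trace σ) (σ : GQ) :
    ρ₁.trace σ = ρ₂.trace σ := by
  rw [← sub_eq_zero]
  have hmem : ∀ n : ℕ, ρ₁.trace σ - ρ₂.trace σ ∈ maximalIdeal T ^ n := by
    intro n
    obtain ⟨L₁, hL₁, hc₁⟩ := Fermat.Agent.S59.H765.exists_level_trace_sub_mem ρ₁ n
    obtain ⟨L₂, hL₂, hc₂⟩ := Fermat.Agent.S59.H765.exists_level_trace_sub_mem ρ₂ n
    haveI := hL₁
    haveI := hL₂
    have hL : FiniteDimensional ℚ (L₁ ⊔ L₂ : IntermediateField ℚ Qb) :=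
      IntermediateField.finiteDimensional_sup L₁ L₂
    obtain ⟨ℓ, B, τ, hℓ, hℓF, hB, hτ, -, hτσ⟩ :=
      Fermat.Agent.Lib.Cheb.chebotarev (L₁ ⊔ L₂) hL σ F
    have h1 := hc₁ σ τ (fun x hx => hτσ x ((le_sup_left : L₁ ≤ L₁ ⊔ L₂) hx))
    have h2 := hc₂ σ τ (fun x hx => hτσ x ((le_sup_right : L₂ ≤ L₁ ⊔ L₂) hx))
    have h3 := h ℓ hℓ hℓF B hB τ hτ
    have : ρ₁.trace σ - ρ₂.trace σ =
        (ρ₂.trace τ - ρ₂.trace σ) - (ρ₁.trace τ - ρ₁.trace σ) := by
      rw [h3]; ring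
    rw [this]
    exact Ideal.sub_mem _ h2 h1
  have hbot : (⨅ n : ℕ, maximalIdeal T ^ n) = ⊥ :=
    Ideal.iInf_pow_eq_bot_of_isLocalRing (maximalIdeal T) (Ideal.IsMaximal.ne_top inferInstance)
  have : ρ₁.trace σ - ρ₂.trace σ ∈ (⨅ n : ℕ, maximalIdeal T ^ n) :=
    (Ideal.mem_iInf).mpr hmem
  rw [hbot] at this
  exact this

/-- **LEAF RIG.** -/
theorem levelRigid : Arch.LevelRigidStatement := by
  intro N N' _ _ S S' hp hNS hNS' _ _ 𝒪 _ _ _ _ _ _ θ H hH H' hH' hres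
  refine isEquiv_of_trace_eq_of_absIrr _ _ ?_ H.residual_absIrr
  refine trace_eq_of_frob155 _ _ (S' ∪ N'.primeFactors) ?_
  intro ℓ hℓ hℓF B hB σ hσ
  have hℓS' : ℓ ∉ (↑S' : Set ℕ) := fun h => hℓF (Finset.mem_union_left _ h)
  have hℓN' : ¬ ℓ ∣ N' := fun h =>
    hℓF (Finset.mem_union_right _ (Nat.mem_primeFactors.mpr ⟨hℓ, h, NeZero.ne N'⟩))
  have hℓN : ¬ ℓ ∣ N := fun h => hℓN' (h.trans hp.dvd)
  have hℓS : ℓ ∉ (↑S : Set ℕ) := fun h => hℓS' (hp.sub h)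
  rw [trace_baseChangeAlong155]
  have t1 : H'.ρ.trace σ = H'.π (heckeAlgebra.T hℓ hℓN' hℓS') :=
    Fermat.Agent.S59.H765.trace_eq_of_charpoly H'.ρ.finrank_eq _ _ _
      (H'.charpoly_frob ℓ hℓ hℓN' hℓS' B hB σ hσ)
  have t2 : H.ρ.trace σ = H.π (heckeAlgebra.T hℓ hℓN hℓS) :=
    Fermat.Agent.S59.H765.trace_eq_of_charpoly H.ρ.finrank_eq _ _ _
      (H.charpoly_frob ℓ hℓ hℓN hℓS B hB σ hσ)
  rw [t1, t2, hH', hH]
  exact Fermat.Agent.S59.H765.resLocal_T hp 𝒪 θ hℓ hℓN' hℓS' hℓN hℓS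

end Fermat.Agent.S59.H155
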